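import Fermat.Agent.DeligneSerre.Group.Diagonal
import Mathlib.Data.Fintype.Card
import Mathlib.Algebra.Order.BigOperators.Group.Finset

/-!
Two counting lemmas for finite groups of two by two matrices.
-/

set_option autoImplicit false

open Matrix Finset

noncomputable section

namespace FLTA.DeligneSerre

variable {K : Type*} [Field K] {G : Type*} [Group G] [Fintype G]
variable (ρ : G →* Matrix (Fin 2) (Fin 2) K)

omit [Fintype G] in
theorem det_map_ne_zero (x : G) : (ρ x).det ≠ 0 := by
  intro h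
  have h1 : (ρ x * ρ x⁻¹).det = 1 := by rw [← map_mul, mul_inv_cancel, map_one, Matrix.det_one]
  rw [Matrix.det_mul, h, zero_mul] at h1
  exact zero_ne_one h1

omit [Fintype G] in
/-- Conjugate of a representation. -/
def conjHom (P Q : Matrix (Fin 2) (Fin 2) K) (h : P * Q = 1) (h' : Q * P = 1) :
    G →* Matrix (Fin 2) (Fin 2) K where
  toFun x := Q * ρ x * P
  map_one' := by rw [map_one, Matrix.mul_one, h']
  map_mul' x y := by
    rw [map_mul]
    simp [Matrix.mul_assoc, ← Matrix.mul_assoc P Q, h]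

/-- If `g` is diagonal then few elements of `G` with non-zero diagonal have trace in a given
finite set. -/
theorem card_trace_good_le_of_diagonal (g : G) {u v : K} (hdiag : ρ g = Matrix.diagonal ![u, v])
    (B : ℕ) (hB0 : 0 < B) (hB : (u * v) ^ B = 1) (T : Finset K) (S : Finset G)
    (hS : ∀ x ∈ S, (ρ x).trace ∈ T) :
    2 * orderOf u * S.card ≤ (orderOf u + 4 * B * T.card) * Fintype.card G := by
  classical
  set e := orderOf u
  have he : 0 < e := by
    refine Nat.pos_of_ne_zero fun h => ?_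
    have h0 : ρ g ^ orderOf g = 1 := by rw [← map_pow, pow_orderOf_eq_one, map_one]
    rw [hdiag, Matrix.diagonal_pow] at h0
    have h1 := congrFun (congrFun h0 0) 0
    simp at h1
    exact (orderOf_eq_zero_iff'.mp h) (orderOf g) (orderOf_pos g) h1
  have hu0 : u ≠ 0 := by
    intro h
    have := det_map_ne_zero ρ g
    simp [hdiag, Matrix.det_diagonal, Fin.prod_univ_two, h] at this
  set anti : Finset G := univ.filter fun x => ρ x 0 0 = 0 ∧ ρ x 1 1 = 0 with hanti
  -- at most half of the elements have zero diagonal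
  have hanti2 : 2 * anti.card ≤ Fintype.card G := by
    rcases anti.eq_empty_or_nonempty with h | ⟨a, ha⟩
    · simp [h]
    have haa : ρ a 0 0 = 0 ∧ ρ a 1 1 = 0 := (mem_filter.mp ha).2
    have hsub : anti.map ⟨fun x => a * x, mul_right_injective a⟩ ⊆ univ \ anti := by
      intro y hy
      obtain ⟨x, hx, rfl⟩ := mem_map.mp hy
      have hxx : ρ x 0 0 = 0 ∧ ρ x 1 1 = 0 := (mem_filter.mp hx).2
      refine mem_sdiff.mpr ⟨mem_univ _, fun h => ?_⟩
      have h1 : ρ (a * x) 0 0 = 0 := (mem_filter.mp h).2.1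
      have h2 := det_map_ne_zero ρ a
      have h3 := det_map_ne_zero ρ x
      simp [map_mul, Matrix.mul_apply, Fin.sum_univ_two, haa.1, hxx.1] at h1
      simp [Matrix.det_fin_two, haa.1, hxx.1] at h2 h3
      rcases h1 with h1 | h1
      · exact h2.1 h1
      · exact h3.2 h1
    have := card_le_card hsub
    rw [card_map, card_sdiff_of_subset (subset_univ _), card_univ] at this
    omega
  -- double counting on cosets of `g`
  set S' := S \ anti
  have key : e * S'.card ≤ 2 * B * T.card * Fintype.card G := by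
    have hcount : ∀ x : G, ((range e).filter fun i => x * g ^ i ∈ S').card ≤ 2 * B * T.card := by
      intro x
      by_cases hx : ρ x 0 0 = 0 ∧ ρ x 1 1 = 0
      · have : (range e).filter (fun i => x * g ^ i ∈ S') = ∅ := by
          refine filter_eq_empty_iff.mpr fun i _ h => (mem_sdiff.mp h).2 (mem_filter.mpr
            ⟨mem_univ _, ?_⟩)
          simp [map_mul, map_pow, hdiag, Matrix.diagonal_pow, Matrix.mul_apply, Fin.sum_univ_two,
            hx.1, hx.2]
        simp [this]
      set α := ρ x 0 0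
      set β := ρ x 1 1
      have hmem : ∀ i ∈ (range e).filter (fun i => x * g ^ i ∈ S'),
          (α * u ^ i + β * v ^ i, i % B) ∈ T ×ˢ range B := by
        intro i hi
        refine mem_product.mpr ⟨?_, mem_range.mpr (Nat.mod_lt _ hB0)⟩
        have := hS _ (mem_sdiff.mp (mem_filter.mp hi).2).1
        simpa [map_mul, map_pow, hdiag, Matrix.diagonal_pow, Matrix.mul_apply, Fin.sum_univ_two,
          Matrix.trace_fin_two] using this
      refine (card_le_mul_card_image_of_maps_to hmem 2 ?_).trans (le_of_eq ?_)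
      · rintro ⟨t, r⟩ -
        by_contra hlt
        rw [not_le] at hlt
        obtain ⟨i, hi, j, hj, k, hk, hij, hik, hjk⟩ := two_lt_card.mp hlt
        simp only [mem_filter, mem_range, Prod.mk.injEq] at hi hj hk
        set c := (u * v) ^ r with hc
        have hrel : ∀ n : ℕ, n % B = r → α * u ^ n + β * v ^ n = t →
            α * u ^ n * u ^ n - t * u ^ n + β * c = 0 := by
          intro n hn hnt
          have : u ^ n * v ^ n = c := by
            rw [hc, ← mul_pow, ← hn, ← Nat.mod_add_div n B, pow_add, pow_mul, hB, one_pow,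
              mul_one, Nat.mod_add_div]
          linear_combination (u ^ n) * hnt + (-β) * this
        have inj : ∀ n m : ℕ, n < e → m < e → u ^ n = u ^ m → n = m := fun n m hn hm h =>
          pow_injOn_Iio_orderOf hn hm h
        have qi := hrel i hi.2.2 hi.2.1
        have qj := hrel j hj.2.2 hj.2.1
        have qk := hrel k hk.2.2 hk.2.1
        have dij : u ^ i - u ^ j ≠ 0 := sub_ne_zero.mpr fun h => hij (inj _ _ hi.1.1 hj.1.1 h)
        have dik : u ^ i - u ^ k ≠ 0 := sub_ne_zero.mpr fun h => hik (inj _ _ hi.1.1 hk.1.1 h)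
        have djk : u ^ j - u ^ k ≠ 0 := sub_ne_zero.mpr fun h => hjk (inj _ _ hj.1.1 hk.1.1 h)
        have s1 : α * (u ^ i + u ^ j) - t = 0 :=
          (mul_eq_zero.mp (show (u ^ i - u ^ j) * (α * (u ^ i + u ^ j) - t) = 0 by
            linear_combination qi - qj)).resolve_left dij
        have s2 : α * (u ^ i + u ^ k) - t = 0 :=
          (mul_eq_zero.mp (show (u ^ i - u ^ k) * (α * (u ^ i + u ^ k) - t) = 0 by
            linear_combination qi - qk)).resolve_left dik
        have hα : α = 0 :=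
          (mul_eq_zero.mp (show α * (u ^ j - u ^ k) = 0 by linear_combination s1 - s2)).resolve_right
            djk
        have ht : t = 0 := by rw [hα] at s1; linear_combination (-1 : K) * s1
        have hcne : c ≠ 0 := pow_ne_zero _ (mul_ne_zero hu0 fun h => by
          rw [h, mul_zero, zero_pow hB0.ne'] at hB; exact zero_ne_one hB)
        have hβ : β = 0 := by
          rw [hα, ht] at qi
          exact (mul_eq_zero.mp (show β * c = 0 by linear_combination qi)).resolve_right hcne
        exact hx ⟨hα, hβ⟩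
      · rw [card_product, card_range]; ring
    have hsum : ∑ x : G, ((range e).filter fun i => x * g ^ i ∈ S').card = e * S'.card := by
      simp only [card_filter]
      rw [sum_comm]
      have : ∀ i ∈ range e, (∑ x : G, if x * g ^ i ∈ S' then 1 else 0) = S'.card := by
        intro i _
        refine (Equiv.sum_comp (Equiv.mulRight (g ^ i)) fun y => if y ∈ S' then 1 else 0).trans ?_
        simp
      rw [sum_congr rfl this, sum_const, card_range, smul_eq_mul]
    rw [← hsum]
    refine (sum_le_card_nsmul univ _ _ fun x _ => hcount x).trans ?_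
    rw [card_univ, smul_eq_mul]; ring_nf; rfl
  have hS' : S.card ≤ S'.card + anti.card := by
    rw [← card_union_of_disjoint sdiff_disjoint]
    exact card_le_card fun x hx => by
      by_cases h : x ∈ anti
      · exact mem_union_right _ h
      · exact mem_union_left _ (mem_sdiff.mpr ⟨hx, h⟩)
  calc 2 * e * S.card ≤ 2 * e * (S'.card + anti.card) := Nat.mul_le_mul_left _ hS'
    _ = 2 * (e * S'.card) + e * (2 * anti.card) := by ring
    _ ≤ 2 * (2 * B * T.card * Fintype.card G) + e * Fintype.card G := by gcongr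
    _ = _ := by ring

/-- If three quarters of `G` have trace in `T`, eigenvalues have bounded order. -/
theorem orderOf_root_le [IsAlgClosed K] (g : G) {u : K} (hu : IsRootOf (ρ g) u) (B : ℕ)
    (hB0 : 0 < B) (hB : (ρ g).det ^ B = 1) (T : Finset K) (S : Finset G)
    (hS : ∀ x ∈ S, (ρ x).trace ∈ T) (hbig : 3 * Fintype.card G ≤ 4 * S.card) :
    u ^ (Nat.factorial (2 * B + 8 * B * T.card)) = 1 := by
  set v := (ρ g).trace - u
  have hmul : u * v = (ρ g).det := hu.mul_other
  suffices h : 0 < orderOf u ∧ orderOf u ≤ 2 * B + 8 * B * T.card from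
    orderOf_dvd_iff_pow_eq_one.mp (Nat.dvd_factorial h.1 h.2)
  by_cases huv : u = v
  · have : u ^ (2 * B) = 1 := by rw [pow_mul, sq]; nth_rw 2 [huv]; rw [hmul, hB]
    have hle := Nat.le_of_dvd (by omega) (orderOf_dvd_of_pow_eq_one this)
    exact ⟨orderOf_pos_iff.mpr (isOfFinOrder_iff_pow_eq_one.mpr ⟨2 * B, by omega, this⟩),
      by omega⟩
  obtain ⟨P, Q, hPQ, hQP, hdiag⟩ := exists_conj_diagonal hu hu.other huv
  have he : 0 < orderOf u := by
    refine Nat.pos_of_ne_zero fun h => ?_
    have h1 : conjHom ρ P Q hPQ hQP (g ^ orderOf g) = 1 := by rw [pow_orderOf_eq_one, map_one]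
    rw [map_pow, show conjHom ρ P Q hPQ hQP g = _ from hdiag, Matrix.diagonal_pow] at h1
    have h2 := congrFun (congrFun h1 0) 0
    simp at h2
    exact (orderOf_eq_zero_iff'.mp h) _ (orderOf_pos g) h2
  refine ⟨he, ?_⟩
  have h := card_trace_good_le_of_diagonal (conjHom ρ P Q hPQ hQP) g hdiag B hB0
    (by rw [hmul, hB]) T S fun x hx => by
      show (Q * ρ x * P).trace ∈ T
      rw [trace_conj hPQ]; exact hS x hx
  have hG : 0 < Fintype.card G := Fintype.card_pos
  nlinarith

/-- Few elements have an eigenvalue of a given large order `e`. -/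
theorem card_orderOf_root_le (hρ : Function.Injective ρ) (e B : ℕ) (hB0 : 0 < B)
    (S : Finset G)
    (hS : ∀ x ∈ S, (ρ x).det ^ B = 1 ∧ ∃ μ, IsRootOf (ρ x) μ ∧ orderOf μ = e) :
    S.card * (e - 2 * B) ≤ Fintype.card G * (2 * B * Nat.totient e) := by
  classical
  rcases le_or_gt e (2 * B) with he | he
  · simp [Nat.sub_eq_zero_of_le he]
  rcases S.eq_empty_or_nonempty with rfl | ⟨x₀, hx₀⟩
  · simp
  obtain ⟨μ₀, -, hμ₀⟩ := (hS x₀ hx₀).2
  have hprim : IsPrimitiveRoot μ₀ e := hμ₀ ▸ IsPrimitiveRoot.orderOf μ₀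
  -- distinct roots
  have hdist : ∀ x ∈ S, ∀ μ, IsRootOf (ρ x) μ → orderOf μ = e → μ ≠ (ρ x).trace - μ := by
    intro x hx μ hμ hord h
    have : μ ^ (2 * B) = 1 := by
      rw [pow_mul, sq]; nth_rw 2 [h]; rw [hμ.mul_other, (hS x hx).1]
    have := Nat.le_of_dvd (by omega) (orderOf_dvd_of_pow_eq_one this)
    omega
  let cand : Finset (Matrix (Fin 2) (Fin 2) K) :=
    ((primitiveRoots e K) ×ˢ (Polynomial.nthRootsFinset B (1 : K))).image
        (fun p => Matrix.diagonal ![p.1, p.2 / p.1]) ∪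
    ((primitiveRoots e K) ×ˢ (Polynomial.nthRootsFinset B (1 : K))).image
        (fun p => Matrix.diagonal ![p.2 / p.1, p.1])
  have hcand : cand.card ≤ 2 * B * Nat.totient e := by
    refine (card_union_le _ _).trans ?_
    have h1 : (Polynomial.nthRootsFinset B (1 : K)).card ≤ B := by
      rw [Polynomial.nthRootsFinset_def]
      exact (Multiset.toFinset_card_le _).trans (Polynomial.card_nthRoots B 1)
    refine (add_le_add card_image_le card_image_le).trans ?_
    rw [card_product, hprim.card_primitiveRoots]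
    nlinarith
  let pairs : Finset (G × ℕ) := (S ×ˢ range e).filter fun p =>
    ¬ (ρ (p.1 ^ p.2) 0 1 = 0 ∧ ρ (p.1 ^ p.2) 1 0 = 0 ∧
      ρ (p.1 ^ p.2) 0 0 = ρ (p.1 ^ p.2) 1 1)
  -- lower bound
  have hlow : S.card * (e - 2 * B) ≤ pairs.card := by
    have hfib : ∀ x ∈ S, e - 2 * B ≤ ((range e).filter fun i => ¬ (ρ (x ^ i) 0 1 = 0 ∧
        ρ (x ^ i) 1 0 = 0 ∧ ρ (x ^ i) 0 0 = ρ (x ^ i) 1 1)).card := by
      intro x hx
      obtain ⟨hdet, μ, hμ, hord⟩ := hS x hx
      obtain ⟨P, Q, hPQ, hQP, hdiag⟩ := exists_conj_diagonal hμ hμ.other (hdist x hx μ hμ hord)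
      have hbad : ((range e).filter fun i => (ρ (x ^ i) 0 1 = 0 ∧
          ρ (x ^ i) 1 0 = 0 ∧ ρ (x ^ i) 0 0 = ρ (x ^ i) 1 1)).card ≤ 2 * B := by
        have hinj : ∀ i ∈ (range e).filter (fun i => (ρ (x ^ i) 0 1 = 0 ∧
            ρ (x ^ i) 1 0 = 0 ∧ ρ (x ^ i) 0 0 = ρ (x ^ i) 1 1)),
            μ ^ i ∈ Polynomial.nthRootsFinset (2 * B) (1 : K) := by
          intro i hi
          obtain ⟨-, a, b, c⟩ := mem_filter.mp hi
          have hsc : ρ (x ^ i) = ρ (x ^ i) 0 0 • (1 : Matrix (Fin 2) (Fin 2) K) := by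
            ext k l; fin_cases k <;> fin_cases l <;> simp [a, b, c]
          have h1 : (Matrix.diagonal ![μ, (ρ x).trace - μ]) ^ i =
              ρ (x ^ i) 0 0 • (1 : Matrix (Fin 2) (Fin 2) K) := by
            rw [← hdiag, conj_pow hPQ hQP, ← map_pow, hsc]
            simp [hQP]
          rw [Matrix.diagonal_pow] at h1
          have h2 := congrFun (congrFun h1 0) 0
          have h3 := congrFun (congrFun h1 1) 1
          simp at h2 h3
          have h4 : μ ^ i * μ ^ i = (ρ x).det ^ i := by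
            rw [← hμ.mul_other, mul_pow, h3, ← h2]
          rw [Polynomial.mem_nthRootsFinset (by omega)]
          rw [← pow_mul, show i * (2 * B) = (i + i) * B by ring, pow_mul, pow_add, h4,
            ← pow_mul, mul_comm i B, pow_mul, hdet, one_pow]
        refine (card_le_card_of_injOn (fun i => μ ^ i) hinj ?_).trans ?_
        · intro i hi j hj h
          exact pow_injOn_Iio_orderOf (hord.symm ▸ mem_range.mp (mem_filter.mp hi).1)
            (hord.symm ▸ mem_range.mp (mem_filter.mp hj).1) h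
        · rw [Polynomial.nthRootsFinset_def]
          exact (Multiset.toFinset_card_le _).trans (Polynomial.card_nthRoots _ 1)
      have := card_filter_add_card_filter_not (s := range e) (fun i => (ρ (x ^ i) 0 1 = 0 ∧
        ρ (x ^ i) 1 0 = 0 ∧ ρ (x ^ i) 0 0 = ρ (x ^ i) 1 1))
      rw [card_range] at this
      omega
    calc S.card * (e - 2 * B) = ∑ _x ∈ S, (e - 2 * B) := by rw [sum_const, smul_eq_mul]
      _ ≤ _ := sum_le_sum hfib
      _ = pairs.card := by simp only [pairs, card_filter, sum_product]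
  refine hlow.trans ?_
  rw [mul_comm (Fintype.card G)]
  refine card_le_mul_card_image_of_maps_to (f := fun p : G × ℕ => p.1 ^ p.2) (t := univ)
    (fun _ _ => mem_univ _) _ fun y _ => ?_
  rcases (pairs.filter fun p => p.1 ^ p.2 = y).eq_empty_or_nonempty with h | ⟨p, hp⟩
  · simp [h]
  obtain ⟨hp1, hpy⟩ := mem_filter.mp hp
  obtain ⟨hpS, hns⟩ := mem_filter.mp hp1
  obtain ⟨-, μ, hμ, hord⟩ := hS p.1 (mem_product.mp hpS).1
  obtain ⟨P, Q, hPQ, hQP, hdiag⟩ :=
    exists_conj_diagonal hμ hμ.other (hdist _ (mem_product.mp hpS).1 μ hμ hord)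
  set d0 := μ ^ p.2
  set d1 := ((ρ p.1).trace - μ) ^ p.2
  have hy : Q * ρ y * P = Matrix.diagonal ![d0, d1] := by
    rw [← hpy, map_pow, ← conj_pow hPQ hQP, hdiag, Matrix.diagonal_pow]
    congr 1; funext i; fin_cases i <;> rfl
  have hd : d0 ≠ d1 := by
    intro hd
    apply hns
    rw [hpy]
    have hy' : ρ y = d0 • (1 : Matrix (Fin 2) (Fin 2) K) := by
      have h1 : Matrix.diagonal ![d0, d1] = d0 • (1 : Matrix (Fin 2) (Fin 2) K) := by
        ext k l; fin_cases k <;> fin_cases l <;> simp [hd]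
      calc ρ y = (P * Q) * ρ y * (P * Q) := by rw [hPQ, Matrix.one_mul, Matrix.mul_one]
        _ = P * (Q * ρ y * P) * Q := by simp only [Matrix.mul_assoc]
        _ = d0 • (1 : Matrix (Fin 2) (Fin 2) K) := by
          rw [hy, h1]; simp [hPQ]
    simp [hy']
  refine (card_le_card_of_injOn (fun q : G × ℕ => Q * ρ q.1 * P) (t := cand) ?_ ?_).trans hcand
  · intro q hq
    obtain ⟨hq1, hqy⟩ := mem_filter.mp hq
    have hqS := (mem_product.mp (mem_filter.mp hq1).1).1
    obtain ⟨hdet, ν, hν, hνord⟩ := hS q.1 hqS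
    have hcomm : (Q * ρ q.1 * P) * Matrix.diagonal ![d0, d1] =
        Matrix.diagonal ![d0, d1] * (Q * ρ q.1 * P) := by
      rw [← hy, ← show ρ (q.1 ^ q.2) = ρ y from congrArg ρ hqy]
      change conjHom ρ P Q hPQ hQP q.1 * conjHom ρ P Q hPQ hQP (q.1 ^ q.2) =
        conjHom ρ P Q hPQ hQP (q.1 ^ q.2) * conjHom ρ P Q hPQ hQP q.1
      rw [← map_mul, ← map_mul, ← pow_succ', ← pow_succ]
    have hX := eq_diagonal_of_commute hd hcomm
    set X := Q * ρ q.1 * P
    have hXdet : X 0 0 * X 1 1 = (ρ q.1).det := by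
      rw [← det_conj (M := ρ q.1) hPQ]
      show X 0 0 * X 1 1 = X.det
      conv_rhs => rw [hX]
      simp [Matrix.det_diagonal, Fin.prod_univ_two]
    have hXtr : X 0 0 + X 1 1 = (ρ q.1).trace := by
      rw [← trace_conj (M := ρ q.1) hPQ, Matrix.trace_fin_two]
    have hroot : (ν - X 0 0) * (ν - X 1 1) = 0 := by
      unfold IsRootOf at hν
      linear_combination hν + hXdet + (-ν) * hXtr
    have hν0 : ν ≠ 0 := hν.ne_zero (det_map_ne_zero ρ _)
    have hmem : (ν, (ρ q.1).det) ∈ (primitiveRoots e K) ×ˢ (Polynomial.nthRootsFinset B (1 : K)) :=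
      mem_product.mpr ⟨(mem_primitiveRoots (by omega)).mpr (hνord ▸ IsPrimitiveRoot.orderOf ν),
        (Polynomial.mem_nthRootsFinset hB0 _).mpr hdet⟩
    show X ∈ cand
    rcases mul_eq_zero.mp hroot with h | h
    · refine mem_union_left _ (mem_image.mpr ⟨_, hmem, ?_⟩)
      conv_rhs => rw [hX]
      rw [show ν = X 0 0 from sub_eq_zero.mp h] at hν0 ⊢
      rw [← hXdet, mul_div_cancel_left₀ _ hν0]
    · refine mem_union_right _ (mem_image.mpr ⟨_, hmem, ?_⟩)
      conv_rhs => rw [hX]
      rw [show ν = X 1 1 from sub_eq_zero.mp h] at hν0 ⊢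
      rw [← hXdet, mul_div_cancel_right₀ _ hν0]
  · intro q hq r hr h
    obtain ⟨hq1, hqy⟩ := mem_filter.mp hq
    obtain ⟨hr1, hry⟩ := mem_filter.mp hr
    obtain ⟨hqS, hqi⟩ := mem_product.mp (mem_filter.mp hq1).1
    obtain ⟨-, hri⟩ := mem_product.mp (mem_filter.mp hr1).1
    have h1 : q.1 = r.1 := hρ (by
      calc ρ q.1 = (P * Q) * ρ q.1 * (P * Q) := by rw [hPQ, Matrix.one_mul, Matrix.mul_one]
        _ = P * (Q * ρ q.1 * P) * Q := by simp only [Matrix.mul_assoc]
        _ = P * (Q * ρ r.1 * P) * Q := by rw [show Q * ρ q.1 * P = Q * ρ r.1 * P from h]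
        _ = (P * Q) * ρ r.1 * (P * Q) := by simp only [Matrix.mul_assoc]
        _ = ρ r.1 := by rw [hPQ, Matrix.one_mul, Matrix.mul_one])
    obtain ⟨-, ν, hν, hνord⟩ := hS q.1 hqS
    obtain ⟨P', Q', hPQ', hQP', hdiag'⟩ := exists_conj_diagonal hν hν.other
      (hdist _ hqS ν hν hνord)
    have h2 : (Q' * ρ q.1 * P') ^ q.2 = (Q' * ρ q.1 * P') ^ r.2 := by
      rw [conj_pow hPQ' hQP', conj_pow hPQ' hQP', ← map_pow, ← map_pow, hqy, h1, hry]
    rw [hdiag', Matrix.diagonal_pow, Matrix.diagonal_pow] at h2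
    have h3 := congrFun (congrFun h2 0) 0
    simp at h3
    exact Prod.ext h1 (pow_injOn_Iio_orderOf (hνord.symm ▸ mem_range.mp hqi)
      (hνord.symm ▸ mem_range.mp hri) h3)

end FLTA.DeligneSerre
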