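import Mathlib.LinearAlgebra.Matrix.GeneralLinearGroup.Defs
import Mathlib.LinearAlgebra.Matrix.ToLinearEquiv
import Mathlib.LinearAlgebra.Matrix.Charpoly.Coeff
import Mathlib.GroupTheory.OrderOfElement
import Mathlib.RingTheory.RootsOfUnity.PrimitiveRoots
import Mathlib.Tactic

/-!
Roots of the characteristic polynomial of a two by two matrix, diagonalisation, powers.
-/

set_option autoImplicit false

open Matrix

noncomputable section

namespace FLTA.DeligneSerre

variable {K : Type*} [Field K]

/-- `μ` is a root of `X² - tr M · X + det M`. -/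
def IsRootOf (M : Matrix (Fin 2) (Fin 2) K) (μ : K) : Prop :=
  μ ^ 2 - M.trace * μ + M.det = 0

theorem det_sub_smul (M : Matrix (Fin 2) (Fin 2) K) (μ : K) :
    (M - μ • (1 : Matrix (Fin 2) (Fin 2) K)).det = μ ^ 2 - M.trace * μ + M.det := by
  simp [Matrix.det_fin_two, Matrix.trace_fin_two]; ring

theorem IsRootOf.ne_zero {M : Matrix (Fin 2) (Fin 2) K} {μ : K} (h : IsRootOf M μ)
    (hM : M.det ≠ 0) : μ ≠ 0 := by
  rintro rfl
  exact hM (by simpa [IsRootOf] using h)

theorem IsRootOf.other {M : Matrix (Fin 2) (Fin 2) K} {μ : K} (h : IsRootOf M μ) :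
    IsRootOf M (M.trace - μ) := by
  unfold IsRootOf at *; linear_combination h

theorem IsRootOf.mul_other {M : Matrix (Fin 2) (Fin 2) K} {μ : K} (h : IsRootOf M μ) :
    μ * (M.trace - μ) = M.det := by
  unfold IsRootOf at *; linear_combination (-1 : K) * h

theorem exists_isRootOf [IsAlgClosed K] (M : Matrix (Fin 2) (Fin 2) K) : ∃ μ, IsRootOf M μ := by
  obtain ⟨μ, hμ⟩ := IsAlgClosed.exists_root
    (Polynomial.X ^ 2 - Polynomial.C M.trace * Polynomial.X + Polynomial.C M.det) (by
      have : (Polynomial.X ^ 2 - Polynomial.C M.trace * Polynomial.X +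
          Polynomial.C M.det).degree = 2 := by compute_degree!
      rw [this]; exact two_ne_zero)
  exact ⟨μ, by simpa [IsRootOf, Polynomial.IsRoot] using hμ⟩

/-- A matrix with two distinct eigenvalues is conjugate to a diagonal one. -/
theorem exists_conj_diagonal {M : Matrix (Fin 2) (Fin 2) K} {u v : K} (hu : IsRootOf M u)
    (hv : IsRootOf M v) (huv : u ≠ v) :
    ∃ P Q : Matrix (Fin 2) (Fin 2) K, P * Q = 1 ∧ Q * P = 1 ∧
      Q * M * P = Matrix.diagonal ![u, v] := by
  obtain ⟨w, hw0, hw⟩ := (Matrix.exists_mulVec_eq_zero_iff).mpr ((det_sub_smul M u).trans hu)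
  obtain ⟨z, hz0, hz⟩ := (Matrix.exists_mulVec_eq_zero_iff).mpr ((det_sub_smul M v).trans hv)
  rw [Matrix.sub_mulVec, Matrix.smul_mulVec, Matrix.one_mulVec, sub_eq_zero] at hw hz
  set P : Matrix (Fin 2) (Fin 2) K := Matrix.of fun i j => ![w, z] j i with hP
  have hdet : P.det ≠ 0 := by
    intro h
    obtain ⟨c, hc0, hc⟩ := (Matrix.exists_mulVec_eq_zero_iff).mpr h
    have e1 : c 0 • w + c 1 • z = 0 := by
      funext i
      have := congrFun hc i
      simpa [hP, Matrix.mulVec, dotProduct, Fin.sum_univ_two, mul_comm] using this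
    have e2 : (c 0 * u) • w + (c 1 * v) • z = 0 := by
      have := congrArg (fun x => M *ᵥ x) e1
      simpa [Matrix.mulVec_add, Matrix.mulVec_smul, hw, hz, smul_smul] using this
    have e3 : (c 0 * (u - v)) • w = 0 := by
      have h4 : v • (c 0 • w + c 1 • z) = 0 := by rw [e1, smul_zero]
      rw [smul_add, smul_smul, smul_smul] at h4
      calc (c 0 * (u - v)) • w
          = ((c 0 * u) • w + (c 1 * v) • z) - ((v * c 0) • w + (v * c 1) • z) := by
            rw [mul_sub, sub_smul, mul_comm v (c 0), mul_comm v (c 1)]; abel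
        _ = 0 := by rw [e2, h4, sub_zero]
    rcases smul_eq_zero.mp e3 with h5 | h5
    · rcases mul_eq_zero.mp h5 with h6 | h6
      · rw [h6, zero_smul, zero_add] at e1
        rcases smul_eq_zero.mp e1 with h7 | h7
        · exact hc0 (funext fun i => by fin_cases i <;> assumption)
        · exact hz0 h7
      · exact huv (sub_eq_zero.mp h6)
    · exact hw0 h5
  have hPunit : IsUnit P.det := isUnit_iff_ne_zero.mpr hdet
  refine ⟨P, P⁻¹, Matrix.mul_nonsing_inv _ hPunit, Matrix.nonsing_inv_mul _ hPunit, ?_⟩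
  have hMP : M * P = P * Matrix.diagonal ![u, v] := by
    ext i j
    have h1 := congrFun hw i
    have h2 := congrFun hz i
    fin_cases j <;>
      simp [hP, Matrix.mul_apply, Fin.sum_univ_two, Matrix.mulVec, dotProduct] at h1 h2 ⊢ <;>
      [rw [h1]; rw [h2]] <;> ring
  rw [Matrix.mul_assoc, hMP, ← Matrix.mul_assoc, Matrix.nonsing_inv_mul _ hPunit, Matrix.one_mul]

/-- A matrix commuting with a diagonal matrix with distinct entries is diagonal. -/
theorem eq_diagonal_of_commute {X : Matrix (Fin 2) (Fin 2) K} {u v : K} (huv : u ≠ v)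
    (h : X * Matrix.diagonal ![u, v] = Matrix.diagonal ![u, v] * X) :
    X = Matrix.diagonal ![X 0 0, X 1 1] := by
  have h01 := congrFun (congrFun h 0) 1
  have h10 := congrFun (congrFun h 1) 0
  simp [Matrix.mul_apply, Fin.sum_univ_two] at h01 h10
  have a01 : X 0 1 = 0 := by
    by_contra hne
    exact huv (mul_left_cancel₀ hne (by linear_combination (-1 : K) * h01))
  have a10 : X 1 0 = 0 := by
    by_contra hne
    exact huv (mul_left_cancel₀ hne (by linear_combination h10))
  ext i j
  fin_cases i <;> fin_cases j <;> simp [a01, a10]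

theorem conj_pow {M P Q : Matrix (Fin 2) (Fin 2) K} (h : P * Q = 1) (h' : Q * P = 1) (n : ℕ) :
    (Q * M * P) ^ n = Q * M ^ n * P := by
  induction n with
  | zero => simp [h']
  | succ n ih =>
    rw [pow_succ, ih, pow_succ]
    simp [Matrix.mul_assoc, ← Matrix.mul_assoc P Q, h]

theorem trace_conj {M P Q : Matrix (Fin 2) (Fin 2) K} (h : P * Q = 1) :
    (Q * M * P).trace = M.trace := by
  rw [Matrix.trace_mul_comm, ← Matrix.mul_assoc, h, Matrix.one_mul]

theorem det_conj {M P Q : Matrix (Fin 2) (Fin 2) K} (h : P * Q = 1) :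
    (Q * M * P).det = M.det := by
  have h1 : P.det * Q.det = 1 := by rw [← Matrix.det_mul, h, Matrix.det_one]
  rw [Matrix.det_mul, Matrix.det_mul]
  linear_combination M.det * h1

end FLTA.DeligneSerre
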